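import Mathlib

/-!
# S48 / R1 : mean square of the coefficients of a function with `|h(z)|² Im z` bounded
[key S48/R-1, Mathlib only, ~450 lines]

**Proof.**  Fix `x ≥ 1`, `y = 1/x`, `F(t) = h(t + i y)`, continuous and `1`-periodic, `F(t) = ∑ c_n e^{-2π n y} e^{2π i n t}` with
`∑ ‖c_n‖ e^{-2π n y} < ∞` (the `HasSum` at `z = i y`, terms have norm `‖c_n‖ e^{-2π n y}`: a `HasSum` in `ℂ` is absolutely summable, `Summable.norm`/`summable_norm_iff`).
Bessel: for every `X`, `∑_{n ≤ X} ‖c_n‖² e^{-4π n y} ≤ ∫₀¹ ‖F‖² ≤ sup ‖F‖² ≤ C / y = C x`.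
 [either `AddCircle`/`fourierCoeff` + `tsum_sq_fourierCoeff`/`Orthonormal.sum_inner_products_le` in `L²(AddCircle 1)` with
  `fourierCoeff F n = c_n e^{-2π n y}` (`hasSum_fourier_series…`, uniqueness of Fourier coefficients of a normally convergent series:
  `fourierCoeff` is continuous linear on `C(AddCircle, ℂ)`), or by hand with `intervalIntegral`: `∫₀¹ F(t) e^{-2π i n t} dt = c_n e^{-2π n y}` by
  `intervalIntegral.hasSum_integral_of_summable_norm`, and `0 ≤ ∫₀¹ ‖F - ∑_{n ≤ X} ĉ_n e_n‖² = ∫ ‖F‖² - ∑_{n ≤ X} ‖ĉ_n‖²`.]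
For `n ≤ x`: `e^{-4π n / x} ≥ e^{-4π}`.  So `∑_{n ≤ x} ‖c_n‖² ≤ C e^{4π} x`.
-/

set_option autoImplicit false

open UpperHalfPlane Complex MeasureTheory

namespace Fermat.Agent.S48

local instance parsFact : Fact (0 < (1 : ℝ)) := ⟨one_pos⟩

theorem parsAux_bessel (d : ℕ → ℂ) (hd : Summable fun n => ‖d n‖) (B : ℝ) (hB : 0 ≤ B)
    (hF : ∀ t : ℝ, ‖∑' n : ℕ, d n * Complex.exp (2 * Real.pi * Complex.I * n * t)‖ ≤ B)
    (s : Finset ℕ) : ∑ n ∈ s, ‖d n‖ ^ 2 ≤ B ^ 2 := by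
  let e : ℕ → C(AddCircle (1 : ℝ), ℂ) := fun n => d n • fourier (n : ℤ)
  have he : Summable e := by
    refine Summable.of_norm ?_
    simpa [e, norm_smul, fourier_norm] using hd
  have hg : ∀ t : AddCircle (1 : ℝ), ‖(∑' n, e n) t‖ ≤ B := by
    intro t
    induction t using QuotientAddGroup.induction_on with
    | H t =>
      rw [← ContinuousMap.tsum_apply he]
      refine le_of_eq_of_le ?_ (hF t)
      congr 1
      refine tsum_congr fun n => ?_
      simp only [e, ContinuousMap.coe_smul, Pi.smul_apply, smul_eq_mul]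
      rw [fourier_coe_apply]
      simp
  let G : Lp ℂ 2 (AddCircle.haarAddCircle (T := (1 : ℝ))) :=
    ContinuousMap.toLp 2 AddCircle.haarAddCircle ℂ (∑' n, e n)
  have hG : ‖G‖ ≤ B := by
    have h1 := Lp.norm_le_of_ae_bound (f := G) hB (by
      filter_upwards [ContinuousMap.coeFn_toLp (p := 2) (𝕜 := ℂ) AddCircle.haarAddCircle (∑' n, e n)]
        with t ht
      rw [ht]
      exact hg t)
    have h2 : measureUnivNNReal (AddCircle.haarAddCircle (T := (1 : ℝ))) = 1 := by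
      simp [measureUnivNNReal]
    rw [h2] at h1
    simpa using h1
  have hGs : G = ∑' n, d n • fourierLp (T := (1 : ℝ)) 2 (n : ℤ) := by
    have := (ContinuousMap.toLp (E := ℂ) 2 (AddCircle.haarAddCircle (T := (1 : ℝ))) ℂ).map_tsum he
    refine this.trans (tsum_congr fun n => ?_)
    simp only [e, map_smul]
  have hsL : Summable fun n : ℕ => d n • fourierLp (T := (1 : ℝ)) 2 (n : ℤ) := by
    have := (ContinuousMap.toLp (E := ℂ) 2 (AddCircle.haarAddCircle (T := (1 : ℝ))) ℂ).summable he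
    refine this.congr fun n => ?_
    simp only [e, map_smul]
  have hin : ∀ m : ℕ, inner ℂ (fourierLp (T := (1 : ℝ)) 2 (m : ℤ)) G = d m := by
    intro m
    rw [hGs, ← innerSL_apply_apply, (innerSL ℂ (fourierLp (T := (1 : ℝ)) 2 (m : ℤ))).map_tsum hsL,
      tsum_eq_single m]
    · rw [innerSL_apply_apply, inner_smul_right, (orthonormal_iff_ite.1 orthonormal_fourier) _ _]
      simp
    · intro n hn
      rw [innerSL_apply_apply, inner_smul_right, (orthonormal_iff_ite.1 orthonormal_fourier) _ _,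
        if_neg (by exact_mod_cast hn.symm), mul_zero]
  have hB2 := (orthonormal_fourier (T := (1 : ℝ))).comp (fun n : ℕ => (n : ℤ)) Nat.cast_injective
  have h3 := hB2.sum_inner_products_le G (s := s)
  simp only [Function.comp, hin] at h3
  exact h3.trans (pow_le_pow_left₀ (norm_nonneg _) hG 2)

theorem sum_sq_le (h : ℍ → ℂ) (c : ℕ → ℂ)
    (hsum : ∀ z : ℍ, HasSum (fun n : ℕ => c n * Complex.exp (2 * Real.pi * Complex.I * n * z)) (h z))
    (C : ℝ) (hC : ∀ z : ℍ, ‖h z‖ ^ 2 * z.im ≤ C) (x : ℕ) (hx : 1 ≤ x) :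
    ∑ n ∈ Finset.range (x + 1), ‖c n‖ ^ 2 ≤ C * Real.exp (4 * Real.pi) * x := by
  have hx0 : (0 : ℝ) < x := by exact_mod_cast hx
  have hy : (0 : ℝ) < 1 / (x : ℝ) := by positivity
  let Z : ℝ → ℍ := fun t => ⟨(t : ℂ) + ((1 / (x : ℝ) : ℝ) : ℂ) * Complex.I, by simpa using hx0⟩
  have hZim : ∀ t, (Z t).im = 1 / (x : ℝ) := by
    intro t
    change ((t : ℂ) + ((1 / (x : ℝ) : ℝ) : ℂ) * Complex.I).im = _
    simp
  have hZc : ∀ t, ((Z t : ℍ) : ℂ) = (t : ℂ) + ((1 / (x : ℝ) : ℝ) : ℂ) * Complex.I := fun t => rfl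
  let d : ℕ → ℂ := fun n =>
    c n * Complex.exp (2 * Real.pi * Complex.I * n * (((1 / (x : ℝ) : ℝ) : ℂ) * Complex.I))
  have hterm : ∀ (t : ℝ) (n : ℕ), c n * Complex.exp (2 * Real.pi * Complex.I * n * (Z t : ℍ))
      = d n * Complex.exp (2 * Real.pi * Complex.I * n * t) := by
    intro t n
    simp only [d]
    rw [hZc, mul_assoc (c n), ← Complex.exp_add]
    congr 2
    ring
  have hdn : ∀ n, ‖d n‖ = ‖c n‖ * Real.exp (-(2 * Real.pi * n / x)) := by
    intro n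
    simp only [d]
    rw [norm_mul, Complex.norm_exp]
    congr 2
    have : (2 * (Real.pi : ℂ) * Complex.I * n * (((1 / (x : ℝ) : ℝ) : ℂ) * Complex.I))
        = ((-(2 * Real.pi * n / x) : ℝ) : ℂ) := by
      push_cast
      have hI : Complex.I * Complex.I = -1 := Complex.I_mul_I
      linear_combination (2 * (Real.pi : ℂ) * n * (1 / (x : ℂ))) * hI
    rw [this, Complex.ofReal_re]
  have hd : Summable fun n => ‖d n‖ := by
    have h0 := (hsum (Z 0)).summable.norm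
    refine h0.congr fun n => ?_
    rw [hterm 0 n]
    simp
  have hCx : ∀ t, ‖h (Z t)‖ ^ 2 ≤ C * x := by
    intro t
    have h1 := hC (Z t)
    rw [hZim, mul_one_div, div_le_iff₀ hx0] at h1
    exact h1
  have hCx0 : 0 ≤ C * x := le_trans (by positivity) (hCx 0)
  have hF : ∀ t : ℝ, ‖∑' n : ℕ, d n * Complex.exp (2 * Real.pi * Complex.I * n * t)‖
      ≤ Real.sqrt (C * x) := by
    intro t
    have h1 : ∑' n : ℕ, d n * Complex.exp (2 * Real.pi * Complex.I * n * t) = h (Z t) := by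
      rw [← (hsum (Z t)).tsum_eq]
      exact tsum_congr fun n => (hterm t n).symm
    rw [h1]
    exact Real.le_sqrt_of_sq_le (hCx t)
  have hbes := parsAux_bessel d hd _ (Real.sqrt_nonneg _) hF (Finset.range (x + 1))
  rw [Real.sq_sqrt hCx0] at hbes
  have hle : ∀ n ∈ Finset.range (x + 1), ‖c n‖ ^ 2 ≤ Real.exp (4 * Real.pi) * ‖d n‖ ^ 2 := by
    intro n hn
    have hn' : (n : ℝ) ≤ x := by exact_mod_cast Nat.lt_succ_iff.1 (Finset.mem_range.1 hn)
    rw [hdn, mul_pow, ← Real.exp_nat_mul, mul_left_comm, ← Real.exp_add]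
    have h1 : (0 : ℝ) ≤ 4 * Real.pi + ((2 : ℕ) : ℝ) * -(2 * Real.pi * n / x) := by
      have h2 : (n : ℝ) / x ≤ 1 := (div_le_one hx0).2 hn'
      have h3 : 2 * Real.pi * n / x = 2 * Real.pi * (n / x) := by ring
      rw [h3]
      push_cast
      nlinarith [Real.pi_pos]
    have h4 : 1 ≤ Real.exp (4 * Real.pi + ((2 : ℕ) : ℝ) * -(2 * Real.pi * n / x)) :=
      Real.one_le_exp h1
    nlinarith [sq_nonneg ‖c n‖]
  calc ∑ n ∈ Finset.range (x + 1), ‖c n‖ ^ 2
      ≤ ∑ n ∈ Finset.range (x + 1), Real.exp (4 * Real.pi) * ‖d n‖ ^ 2 := Finset.sum_le_sum hle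
    _ = Real.exp (4 * Real.pi) * ∑ n ∈ Finset.range (x + 1), ‖d n‖ ^ 2 := by rw [Finset.mul_sum]
    _ ≤ Real.exp (4 * Real.pi) * (C * x) := mul_le_mul_of_nonneg_left hbes (Real.exp_pos _).le
    _ = C * Real.exp (4 * Real.pi) * x := by ring

end Fermat.Agent.S48
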