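import Fermat.Agent.S48.Defs

/-!
# S48 / R4 : formal multiplicativity and the finite Euler product
[key S48/R-4a : `HeckeRel.mul`, `HeckeRel.rec` (~200 lines);  key S48/R-4b : `prod_le` (~300 lines); Mathlib only]

`HeckeRel.rec` : `n = p^(k+1)` in the relation.
`HeckeRel.mul` : first `a (p^k * n) = a (p^k) * a n` for `p ∤ N`, `p ∤ n` by (two step) induction on `k`:
 `a (p^(k+2) n) = a p * a (p^(k+1) n) - e p * a (p^k n)` and the same for `n = 1`.  Then induction on `m` (`Nat.recOnPosPrimePosCoprime` / `induction_on_primes`).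
`prod_le` : expand `∏_{p ∈ F} ∑_{k<K} c(p^k) (p^k)^{-s} = ∑_{κ : F → range K} c(n_κ) n_κ^{-s}`, `n_κ = ∏ p^{κ p}` (`Finset.prod_sum`/`Finset.prod_univ_sum`, multiplicativity by induction on `F`);
 `κ ↦ n_κ` is injective (`Nat.factorization`), `1 ≤ n_κ ≤ X := (∏ p)^K`; so the sum is a sub-sum of `∑_{1 ≤ n ≤ X}` (nonnegative terms).  Induction on `F` is probably easiest:
 claim `P(F)`: for every `X`-free statement "`∏_{p∈F} (…) = ∑_{n ∈ T_F} c n n^{-s}` for a finite set `T_F` of positive integers all of whose prime factors are in `F`".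
-/

set_option autoImplicit false

namespace Fermat.Agent.S48

theorem HeckeRel.rec {N : ℕ} {a e : ℕ → ℂ} (h : HeckeRel N a e) {p : ℕ} (hp : p.Prime) (hpN : ¬ p ∣ N)
    (k : ℕ) : a (p ^ (k + 2)) = a p * a (p ^ (k + 1)) - e p * a (p ^ k) := by
  have h1 := h p hp hpN (p ^ (k + 1))
  rw [if_pos (dvd_pow_self p (Nat.succ_ne_zero k)), ← pow_succ', pow_succ p k,
    Nat.mul_div_cancel _ hp.pos] at h1
  rw [← pow_succ p k] at h1
  linear_combination h1

theorem HeckeRel.mul_prime_pow {N : ℕ} {a e : ℕ → ℂ} (h : HeckeRel N a e) (h1 : a 1 = 1) {p : ℕ}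
    (hp : p.Prime) (hpN : ¬ p ∣ N) {n : ℕ} (hn : ¬ p ∣ n) (k : ℕ) :
    a (p ^ k * n) = a (p ^ k) * a n := by
  induction k using Nat.twoStepInduction with
  | zero => simp [h1]
  | one =>
    have h2 := h p hp hpN n
    rw [if_neg hn, mul_zero, add_zero] at h2
    rw [pow_one, h2]
  | more k ih0 ih1 =>
    have h2 := h p hp hpN (p ^ (k + 1) * n)
    have h3 : p ∣ p ^ (k + 1) * n := Dvd.dvd.mul_right (dvd_pow_self p (Nat.succ_ne_zero k)) n
    have h4 : p ^ (k + 1) * n / p = p ^ k * n := by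
      rw [pow_succ', mul_assoc, Nat.mul_div_cancel_left _ hp.pos]
    rw [if_pos h3, h4, ← mul_assoc, ← pow_succ', ih0, ih1] at h2
    rw [h.rec hp hpN k]
    linear_combination h2

theorem HeckeRel.mul {N : ℕ} {a e : ℕ → ℂ} (h : HeckeRel N a e) (h1 : a 1 = 1) (m n : ℕ)
    (hmn : m.Coprime n) (hmN : m.Coprime N) : a (m * n) = a m * a n := by
  induction m using Nat.recOnPrimeCoprime generalizing n with
  | zero =>
    rw [Nat.coprime_zero_left] at hmn
    subst hmn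
    simp [h1]
  | prime_pow p k hp =>
    rcases Nat.eq_zero_or_pos k with rfl | hk
    · simp [h1]
    · have hpn : ¬ p ∣ n := by
        intro hd
        have := Nat.Coprime.coprime_dvd_left (dvd_pow_self p hk.ne') hmn
        exact hp.one_lt.ne' (Nat.eq_one_of_dvd_coprimes this dvd_rfl hd)
      have hpN : ¬ p ∣ N := by
        intro hd
        have := Nat.Coprime.coprime_dvd_left (dvd_pow_self p hk.ne') hmN
        exact hp.one_lt.ne' (Nat.eq_one_of_dvd_coprimes this dvd_rfl hd)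
      exact h.mul_prime_pow h1 hp hpN hpn k
  | coprime m1 m2 _ _ hc ih1 ih2 =>
    have hm1n : m1.Coprime n := Nat.Coprime.coprime_dvd_left (Dvd.intro _ rfl) hmn
    have hm2n : m2.Coprime n := Nat.Coprime.coprime_dvd_left (Dvd.intro_left _ rfl) hmn
    have hm1N : m1.Coprime N := Nat.Coprime.coprime_dvd_left (Dvd.intro _ rfl) hmN
    have hm2N : m2.Coprime N := Nat.Coprime.coprime_dvd_left (Dvd.intro_left _ rfl) hmN
    rw [mul_assoc, ih1 (m2 * n) (Nat.Coprime.mul_right hc hm1n) hm1N, ih2 n hm2n hm2N,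
      ih1 m2 hc hm1N, mul_assoc]

theorem eulerAux_inj {p : ℕ} (hp : p.Prime) {k k' n n' : ℕ} (hn : ¬ p ∣ n) (hn' : ¬ p ∣ n')
    (h : p ^ k * n = p ^ k' * n') : k = k' ∧ n = n' := by
  have hle : ∀ {k k' n n' : ℕ}, ¬ p ∣ n' → p ^ k * n = p ^ k' * n' → k ≤ k' := by
    intro k k' n n' hn' h
    have h1 : p ^ k ∣ p ^ k' * n' := Dvd.intro _ h
    have h2 : (p ^ k).Coprime n' := Nat.Coprime.pow_left k ((Nat.Prime.coprime_iff_not_dvd hp).2 hn')
    exact (Nat.pow_dvd_pow_iff_le_right hp.one_lt).1 (h2.dvd_of_dvd_mul_right h1)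
  have hk : k = k' := le_antisymm (hle hn' h) (hle hn h.symm)
  subst hk
  exact ⟨rfl, Nat.eq_of_mul_eq_mul_left (pow_pos hp.pos k) h⟩

theorem eulerAux_exists (N : ℕ) (c : ℕ → ℝ) (hc1 : c 1 = 1)
    (hmul : ∀ m n : ℕ, m.Coprime n → m.Coprime N → c (m * n) = c m * c n) (s : ℝ)
    (F : Finset ℕ) (hF : ∀ p ∈ F, p.Prime ∧ ¬ p ∣ N) (K : ℕ) :
    ∃ T : Finset ℕ, (∀ n ∈ T, 0 < n ∧ ∀ q : ℕ, q.Prime → q ∣ n → q ∈ F) ∧
      ∏ p ∈ F, ∑ k ∈ Finset.range K, c (p ^ k) * ((p : ℝ) ^ (-s)) ^ k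
        = ∑ n ∈ T, c n * (n : ℝ) ^ (-s) := by
  induction F using Finset.induction_on with
  | empty =>
    refine ⟨{1}, ?_, by simp [hc1]⟩
    intro n hn
    rw [Finset.mem_singleton] at hn
    subst hn
    exact ⟨one_pos, fun q hq hd => absurd (Nat.dvd_one.1 hd) hq.one_lt.ne'⟩
  | insert p F hpF ih =>
    obtain ⟨T, hT, hprod⟩ := ih fun q hq => hF q (Finset.mem_insert_of_mem hq)
    obtain ⟨hp, hpN⟩ := hF p (Finset.mem_insert_self p F)
    have hpT : ∀ n ∈ T, ¬ p ∣ n := fun n hn hd => hpF ((hT n hn).2 p hp hd)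
    have hinj : Set.InjOn (fun x : ℕ × ℕ => p ^ x.1 * x.2) (Finset.range K ×ˢ T : Finset (ℕ × ℕ)) := by
      rintro ⟨k, n⟩ hx ⟨k', n'⟩ hx' h
      have hn := (Finset.mem_product.1 (Finset.mem_coe.1 hx)).2
      have hn' := (Finset.mem_product.1 (Finset.mem_coe.1 hx')).2
      obtain ⟨h1, h2⟩ := eulerAux_inj hp (hpT n hn) (hpT n' hn') h
      exact Prod.ext h1 h2
    refine ⟨(Finset.range K ×ˢ T).image fun x : ℕ × ℕ => p ^ x.1 * x.2, ?_, ?_⟩
    · intro n hn
      obtain ⟨⟨k, n'⟩, hx, rfl⟩ := Finset.mem_image.1 hn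
      have hn' := (Finset.mem_product.1 hx).2
      refine ⟨Nat.mul_pos (pow_pos hp.pos k) (hT n' hn').1, fun q hq hd => ?_⟩
      rcases (Nat.Prime.dvd_mul hq).1 hd with h1 | h1
      · have := (Nat.prime_dvd_prime_iff_eq hq hp).1 (hq.dvd_of_dvd_pow h1)
        rw [this]
        exact Finset.mem_insert_self p F
      · exact Finset.mem_insert_of_mem ((hT n' hn').2 q hq h1)
    · rw [Finset.prod_insert hpF, hprod, Finset.sum_image hinj, Finset.sum_product, Finset.sum_mul]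
      refine Finset.sum_congr rfl fun k _ => ?_
      rw [Finset.mul_sum]
      refine Finset.sum_congr rfl fun n hn => ?_
      have hcop : (p ^ k).Coprime n :=
        Nat.Coprime.pow_left k ((Nat.Prime.coprime_iff_not_dvd hp).2 (hpT n hn))
      have hcopN : (p ^ k).Coprime N :=
        Nat.Coprime.pow_left k ((Nat.Prime.coprime_iff_not_dvd hp).2 hpN)
      have hpow : (((p ^ k * n : ℕ) : ℝ)) ^ (-s) = ((p : ℝ) ^ (-s)) ^ k * (n : ℝ) ^ (-s) := by
        rw [Nat.cast_mul, Nat.cast_pow, Real.mul_rpow (by positivity) (by positivity),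
          ← Real.rpow_natCast, ← Real.rpow_natCast, ← Real.rpow_mul (by positivity),
          ← Real.rpow_mul (by positivity), mul_comm (k : ℝ)]
      simp only
      rw [hmul _ _ hcop hcopN, hpow]
      ring

theorem prod_le (N : ℕ) (c : ℕ → ℝ) (hc : ∀ n, 0 ≤ c n) (hc1 : c 1 = 1)
    (hmul : ∀ m n : ℕ, m.Coprime n → m.Coprime N → c (m * n) = c m * c n)
    (s D : ℝ) (hD : ∀ X : ℕ, ∑ n ∈ Finset.Icc 1 X, c n * (n : ℝ) ^ (-s) ≤ D)
    (F : Finset ℕ) (hF : ∀ p ∈ F, p.Prime ∧ ¬ p ∣ N) (K : ℕ) :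
    ∏ p ∈ F, ∑ k ∈ Finset.range K, c (p ^ k) * ((p : ℝ) ^ (-s)) ^ k ≤ D := by
  obtain ⟨T, hT, hprod⟩ := eulerAux_exists N c hc1 hmul s F hF K
  rw [hprod]
  refine le_trans ?_ (hD (T.sup id))
  refine Finset.sum_le_sum_of_subset_of_nonneg ?_ fun n _ _ => mul_nonneg (hc n) (by positivity)
  intro n hn
  exact Finset.mem_Icc.2 ⟨(hT n hn).1, Finset.le_sup (f := id) hn⟩

end Fermat.Agent.S48
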