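import Mathlib

/-!
# S48 / R3 : the local factor inequality
[key S48/R-3, Mathlib only, ~350 lines]

`b 0 = 1`, `b 1 = a`, `b (k+2) = a b (k+1) - e b k`, `‖e‖ = 1`.

`pow_le` : `‖a‖^(2k) / k! ≤ ∑_{j ≤ k/2} ‖b (k - 2j)‖²`.
**Proof.**  `a * b 0 = b 1`, `a * b (m+1) = b (m+2) + e * b m`.  By induction on `k` there are `f_k : ℕ → ℝ`, `f_k ≥ 0`, with
`a ^ k = ∑_{j ≤ k/2} f_k(j) e^j b (k - 2j)` and `S_k := ∑_j f_k(j)² ≤ k!`:  `f_{k+1}(j) = f_k(j) + f_k(j-1)` (the term `j - 1` only if `k - 2(j-1) ≥ 1`),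
so `S_{k+1} ≤ 2 (S_k + S_k) = 4 S_k`;  `f_0 = (1)`, `f_1 = (1)`, `f_2 = (1,1)`, `f_3 = (1,2)`: `S_0, …, S_3 = 1, 1, 2, 5 ≤ k!`, and for `k ≥ 3`: `S_{k+1} ≤ 4 S_k ≤ 4 k! ≤ (k+1)!`.
 (It is convenient to index by `m = k - 2j`: `a ^ k = ∑_{m ≤ k} F_k(m) u_{k,m} b m` with `‖u‖ = 1` or `0`; e.g. define `F : ℕ → ℕ → ℂ` by `F 0 m = [m = 0]`,
  `F (k+1) m = (if m = 0 then 0 else F k (m-1)) + e * F k (m+1)`, prove `a ^ k = ∑_{m ≤ k} F k m * b m`, `F k m = 0` for `m > k` or `m ≢ k mod 2`,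
  `∑_m ‖F k m‖² ≤ k!`.)   Cauchy–Schwarz: `‖a‖^(2k) ≤ (∑ ‖F k m‖²)(∑_{m ≤ k, m ≡ k (2)} ‖b m‖²)`.

`exp_le` : for `0 ≤ X < 1` and `L` a bound of all partial sums of `∑ ‖b k‖² X^k`:  `exp(‖a‖² X) (1 - X²) ≤ L`.
**Proof.**  `∑_{k<K} (‖a‖² X)^k / k! ≤ ∑_{k<K} ∑_{j ≤ k/2} X^{2j} ‖b (k-2j)‖² X^{k-2j} ≤ (∑_{j<K} X^{2j}) (∑_{m<K} ‖b m‖² X^m) ≤ L/(1 - X²)`; let `K → ∞` (`Real.exp` as limit of partial sums, `NormedSpace.expSeries`/`Real.hasSum_exp`…).
-/

set_option autoImplicit false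

namespace Fermat.Agent.S48

/-- the coefficients of `a ^ k` in terms of the `b m` -/
noncomputable def locF (e : ℂ) : ℕ → ℕ → ℂ
  | 0, m => if m = 0 then 1 else 0
  | k + 1, m => (if m = 0 then 0 else locF e k (m - 1)) + e * locF e k (m + 1)

theorem locF_zero (e : ℂ) (m : ℕ) : locF e 0 m = if m = 0 then 1 else 0 := rfl

theorem locF_succ (e : ℂ) (k m : ℕ) :
    locF e (k + 1) m = (if m = 0 then 0 else locF e k (m - 1)) + e * locF e k (m + 1) := rfl

theorem locF_parity (e : ℂ) (k : ℕ) : ∀ m, locF e k m ≠ 0 → ∃ j, m + 2 * j = k := by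
  induction k with
  | zero =>
    intro m h
    rw [locF_zero] at h
    by_cases hm : m = 0
    · exact ⟨0, by omega⟩
    · rw [if_neg hm] at h; exact absurd rfl h
  | succ k ih =>
    intro m h
    rw [locF_succ] at h
    by_cases h2 : locF e k (m + 1) = 0
    · rw [h2, mul_zero, add_zero] at h
      by_cases hm : m = 0
      · rw [if_pos hm] at h; exact absurd rfl h
      · rw [if_neg hm] at h
        obtain ⟨j, hj⟩ := ih _ h
        exact ⟨j, by omega⟩
    · obtain ⟨j, hj⟩ := ih _ h2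
      exact ⟨j + 1, by omega⟩

theorem locF_eq_zero (e : ℂ) {k m : ℕ} (h : k < m) : locF e k m = 0 := by
  by_contra h0
  obtain ⟨j, hj⟩ := locF_parity e k m h0
  omega

theorem locF_pow (a e : ℂ) (b : ℕ → ℂ) (h0 : b 0 = 1) (h1 : b 1 = a)
    (hrec : ∀ k, b (k + 2) = a * b (k + 1) - e * b k) (k : ℕ) :
    a ^ k = ∑ m ∈ Finset.range (k + 1), locF e k m * b m := by
  induction k with
  | zero => simp [locF_zero, h0]
  | succ k ih =>
    have hA : ∑ m ∈ Finset.range (k + 2), (if m = 0 then 0 else locF e k (m - 1)) * b m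
        = ∑ m ∈ Finset.range (k + 1), locF e k m * b (m + 1) := by
      rw [Finset.sum_range_succ']
      simp
    have hB : ∑ m ∈ Finset.range (k + 2), e * locF e k (m + 1) * b m
        = ∑ m ∈ Finset.range (k + 1), locF e k m * (if m = 0 then 0 else e * b (m - 1)) := by
      rw [Finset.sum_range_succ, Finset.sum_range_succ, locF_eq_zero e (by omega : k < k + 1 + 1),
        locF_eq_zero e (by omega : k < k + 1), Finset.sum_range_succ']
      simp only [mul_zero, zero_mul, add_zero, Nat.add_eq_zero_iff, one_ne_zero, and_false,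
        if_false, if_true, Nat.add_sub_cancel]
      refine Finset.sum_congr rfl fun m _ => ?_
      ring
    have hab : ∀ m, a * b m = b (m + 1) + (if m = 0 then 0 else e * b (m - 1)) := by
      intro m
      cases m with
      | zero => simp [h0, h1]
      | succ m => simp [hrec m]
    rw [pow_succ', ih, Finset.mul_sum]
    simp only [locF_succ, add_mul]
    rw [Finset.sum_add_distrib, hA, hB, ← Finset.sum_add_distrib]
    refine Finset.sum_congr rfl fun m _ => ?_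
    rw [← mul_add, ← hab]
    ring

/-- `S_k` -/
noncomputable def locS (e : ℂ) (k : ℕ) : ℝ := ∑ m ∈ Finset.range (k + 1), ‖locF e k m‖ ^ 2

theorem locS_succ_le (e : ℂ) (he : ‖e‖ = 1) (k : ℕ) : locS e (k + 1) ≤ 4 * locS e k := by
  have hA : ∑ m ∈ Finset.range (k + 2), ‖(if m = 0 then 0 else locF e k (m - 1))‖ ^ 2
      = locS e k := by
    rw [Finset.sum_range_succ']
    simp [locS]
  have hB : ∑ m ∈ Finset.range (k + 2), ‖locF e k (m + 1)‖ ^ 2 ≤ locS e k := by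
    have h := Finset.sum_range_succ' (fun m => ‖locF e k m‖ ^ 2) (k + 2)
    rw [Finset.sum_range_succ, Finset.sum_range_succ, locF_eq_zero e (by omega : k < k + 1 + 1),
      locF_eq_zero e (by omega : k < k + 1)] at h
    simp only [norm_zero, ne_eq, OfNat.ofNat_ne_zero, not_false_eq_true, zero_pow, add_zero] at h
    rw [locS, h]
    have : 0 ≤ ‖locF e k 0‖ ^ 2 := by positivity
    linarith
  calc locS e (k + 1) = ∑ m ∈ Finset.range (k + 2), ‖locF e (k + 1) m‖ ^ 2 := rfl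
    _ ≤ ∑ m ∈ Finset.range (k + 2), (2 * ‖(if m = 0 then 0 else locF e k (m - 1))‖ ^ 2
          + 2 * ‖locF e k (m + 1)‖ ^ 2) := by
        refine Finset.sum_le_sum fun m _ => ?_
        rw [locF_succ]
        have h1 := norm_add_le (if m = 0 then 0 else locF e k (m - 1)) (e * locF e k (m + 1))
        rw [norm_mul, he, one_mul] at h1
        have h2 := norm_nonneg ((if m = 0 then 0 else locF e k (m - 1)) + e * locF e k (m + 1))
        nlinarith [sq_nonneg (‖(if m = 0 then 0 else locF e k (m - 1))‖ - ‖locF e k (m + 1)‖)]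
    _ = 2 * ∑ m ∈ Finset.range (k + 2), ‖(if m = 0 then 0 else locF e k (m - 1))‖ ^ 2
          + 2 * ∑ m ∈ Finset.range (k + 2), ‖locF e k (m + 1)‖ ^ 2 := by
        rw [Finset.sum_add_distrib, Finset.mul_sum, Finset.mul_sum]
    _ ≤ 4 * locS e k := by rw [hA]; linarith

theorem locS_le (e : ℂ) (he : ‖e‖ = 1) (k : ℕ) : locS e k ≤ (k.factorial : ℝ) := by
  have h3 : locS e 3 ≤ ((3 : ℕ).factorial : ℝ) := by
    have : e + e = 2 * e := by ring
    simp [locS, Finset.sum_range_succ, locF_succ, locF_zero, this, he, Nat.factorial]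
    norm_num
  have hge : ∀ k, locS e (k + 3) ≤ ((k + 3).factorial : ℝ) := by
    intro k
    induction k with
    | zero => exact h3
    | succ k ih =>
      have h := locS_succ_le e he (k + 3)
      have h4 : ((k + 1 + 3).factorial : ℝ) = ((k : ℝ) + 4) * ((k + 3).factorial : ℝ) := by
        rw [show k + 1 + 3 = (k + 3) + 1 by ring, Nat.factorial_succ]
        push_cast
        ring
      rw [h4]
      have h5 : (0 : ℝ) ≤ ((k + 3).factorial : ℝ) := by positivity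
      have h6 : (0 : ℝ) ≤ (k : ℝ) := by positivity
      calc locS e (k + 1 + 3) ≤ 4 * locS e (k + 3) := h
        _ ≤ 4 * ((k + 3).factorial : ℝ) := by linarith
        _ ≤ ((k : ℝ) + 4) * ((k + 3).factorial : ℝ) := by nlinarith
  match k with
  | 0 => simp [locS, locF_zero]
  | 1 => simp [locS, Finset.sum_range_succ, locF_succ, locF_zero]
  | 2 => simp [locS, Finset.sum_range_succ, locF_succ, locF_zero, he, Nat.factorial]; norm_num
  | k + 3 => exact hge k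

/-- reindexing `m = k - 2 j` -/
theorem loc_reindex {M : Type*} [AddCommMonoid M] (e : ℂ) (k : ℕ) (g : ℕ → M)
    (hg : ∀ m, locF e k m = 0 → g m = 0) :
    ∑ m ∈ Finset.range (k + 1), g m = ∑ j ∈ Finset.range (k / 2 + 1), g (k - 2 * j) := by
  have hinj : Set.InjOn (fun j => k - 2 * j) (Finset.range (k / 2 + 1) : Set ℕ) := by
    intro i hi j hj h
    simp only [Finset.coe_range, Set.mem_Iio] at hi hj
    simp only at h
    omega
  rw [← Finset.sum_image (f := g) hinj]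
  symm
  refine Finset.sum_subset ?_ ?_
  · intro m hm
    obtain ⟨j, _, rfl⟩ := Finset.mem_image.1 hm
    exact Finset.mem_range.2 (by omega)
  · intro m _ hm
    refine hg m ?_
    by_contra h0
    obtain ⟨j, hj⟩ := locF_parity e k m h0
    exact hm (Finset.mem_image.2 ⟨j, Finset.mem_range.2 (by omega), by omega⟩)

theorem pow_le (a e : ℂ) (he : ‖e‖ = 1) (b : ℕ → ℂ) (h0 : b 0 = 1) (h1 : b 1 = a)
    (hrec : ∀ k, b (k + 2) = a * b (k + 1) - e * b k) (k : ℕ) :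
    ‖a‖ ^ (2 * k) / (k.factorial : ℝ) ≤ ∑ j ∈ Finset.range (k / 2 + 1), ‖b (k - 2 * j)‖ ^ 2 := by
  have hk : (0 : ℝ) < (k.factorial : ℝ) := by exact_mod_cast k.factorial_pos
  rw [div_le_iff₀ hk]
  have hS := locS_le e he k
  rw [locS, loc_reindex e k (fun m => ‖locF e k m‖ ^ 2) (fun m hm => by simp [hm])] at hS
  have hp := locF_pow a e b h0 h1 hrec k
  rw [loc_reindex e k (fun m => locF e k m * b m) (fun m hm => by simp [hm])] at hp
  have hB : 0 ≤ ∑ j ∈ Finset.range (k / 2 + 1), ‖b (k - 2 * j)‖ ^ 2 :=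
    Finset.sum_nonneg fun _ _ => by positivity
  calc ‖a‖ ^ (2 * k) = ‖a ^ k‖ ^ 2 := by rw [norm_pow, ← pow_mul, mul_comm]
    _ ≤ (∑ j ∈ Finset.range (k / 2 + 1), ‖locF e k (k - 2 * j)‖ * ‖b (k - 2 * j)‖) ^ 2 := by
        rw [hp]
        refine pow_le_pow_left₀ (norm_nonneg _) ?_ 2
        refine (norm_sum_le _ _).trans (le_of_eq ?_)
        exact Finset.sum_congr rfl fun j _ => norm_mul _ _
    _ ≤ (∑ j ∈ Finset.range (k / 2 + 1), ‖locF e k (k - 2 * j)‖ ^ 2) *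
          ∑ j ∈ Finset.range (k / 2 + 1), ‖b (k - 2 * j)‖ ^ 2 :=
        Finset.sum_mul_sq_le_sq_mul_sq _ _ _
    _ ≤ (k.factorial : ℝ) * ∑ j ∈ Finset.range (k / 2 + 1), ‖b (k - 2 * j)‖ ^ 2 :=
        mul_le_mul_of_nonneg_right hS hB
    _ = _ := mul_comm _ _

/-- `D_k = ∑_{j ≤ k/2} ‖b (k - 2j)‖²` -/
noncomputable def locD (b : ℕ → ℂ) (k : ℕ) : ℝ :=
  ∑ j ∈ Finset.range (k / 2 + 1), ‖b (k - 2 * j)‖ ^ 2

theorem locD_add_two (b : ℕ → ℂ) (k : ℕ) : locD b (k + 2) = ‖b (k + 2)‖ ^ 2 + locD b k := by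
  rw [locD, locD, show (k + 2) / 2 + 1 = (k / 2 + 1) + 1 by omega, Finset.sum_range_succ', add_comm]
  congr 1
  refine Finset.sum_congr rfl fun j _ => ?_
  rw [show k + 2 - 2 * (j + 1) = k - 2 * j by omega]

theorem locD_zero (b : ℕ → ℂ) : locD b 0 = ‖b 0‖ ^ 2 := by simp [locD]

theorem locD_one (b : ℕ → ℂ) : locD b 1 = ‖b 1‖ ^ 2 := by simp [locD]

theorem locW_le (b : ℕ → ℂ) (X : ℝ) (hX0 : 0 ≤ X) (hX1 : X < 1) (L : ℝ)
    (hL : ∀ K : ℕ, ∑ k ∈ Finset.range K, ‖b k‖ ^ 2 * X ^ k ≤ L) (K : ℕ) :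
    (∑ k ∈ Finset.range K, locD b k * X ^ k) * (1 - X ^ 2) ≤ L := by
  have hX2 : 0 ≤ 1 - X ^ 2 := by nlinarith
  have hX3 : 0 ≤ X ^ 2 := by positivity
  have hstep : ∀ K, ∑ k ∈ Finset.range (K + 2), locD b k * X ^ k
      = ∑ k ∈ Finset.range (K + 2), ‖b k‖ ^ 2 * X ^ k
        + X ^ 2 * ∑ k ∈ Finset.range K, locD b k * X ^ k := by
    intro K
    rw [Finset.sum_range_succ', Finset.sum_range_succ', Finset.sum_range_succ' (fun k => ‖b k‖ ^ 2 * X ^ k),
      Finset.sum_range_succ' (fun k => ‖b (k + 1)‖ ^ 2 * X ^ (k + 1)), Finset.mul_sum]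
    simp only [locD_add_two, locD_zero, locD_one, zero_add, add_assoc, one_add_one_eq_two, add_mul,
      Finset.sum_add_distrib]
    have : ∀ k, locD b k * X ^ (k + 2) = X ^ 2 * (locD b k * X ^ k) := fun k => by ring
    simp only [this]
    ring
  induction K using Nat.twoStepInduction with
  | zero => simpa using hL 0
  | one =>
    have h := hL 1
    simp only [Finset.range_one, Finset.sum_singleton, pow_zero, mul_one] at h ⊢
    rw [locD_zero]
    have : 0 ≤ ‖b 0‖ ^ 2 := by positivity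
    nlinarith
  | more K ih _ =>
    rw [hstep]
    have h := hL (K + 2)
    nlinarith

theorem exp_le (a e : ℂ) (he : ‖e‖ = 1) (b : ℕ → ℂ) (h0 : b 0 = 1) (h1 : b 1 = a)
    (hrec : ∀ k, b (k + 2) = a * b (k + 1) - e * b k) (X : ℝ) (hX0 : 0 ≤ X) (hX1 : X < 1) (L : ℝ)
    (hL : ∀ K : ℕ, ∑ k ∈ Finset.range K, ‖b k‖ ^ 2 * X ^ k ≤ L) :
    Real.exp (‖a‖ ^ 2 * X) * (1 - X ^ 2) ≤ L := by
  have hX2 : 0 ≤ 1 - X ^ 2 := by nlinarith
  have hs : HasSum (fun n : ℕ => (‖a‖ ^ 2 * X) ^ n / (n.factorial : ℝ)) (Real.exp (‖a‖ ^ 2 * X)) := by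
    rw [Real.exp_eq_exp_ℝ]
    exact NormedSpace.expSeries_div_hasSum_exp (‖a‖ ^ 2 * X)
  have ht := (hs.tendsto_sum_nat).mul_const (1 - X ^ 2)
  refine le_of_tendsto' ht fun K => ?_
  refine le_trans ?_ (locW_le b X hX0 hX1 L hL K)
  refine mul_le_mul_of_nonneg_right (Finset.sum_le_sum fun k _ => ?_) hX2
  have h := pow_le a e he b h0 h1 hrec k
  rw [mul_pow, ← pow_mul, mul_div_right_comm]
  exact mul_le_mul_of_nonneg_right h (by positivity)

end Fermat.Agent.S48
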