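import Fermat.Agent.S48.R.Abel
import Fermat.Agent.S48.R.Local
import Fermat.Agent.S48.R.Euler

/-!
# S48 / R5 : the Rankin bound `∑_p |a_p|² p^{-s} ≤ log(1/(s-1)) + O(1)`
[key S48/R-5, ~300 lines, from the stubs `abel_bound`, `exp_le`, `HeckeRel.rec`, `HeckeRel.mul`, `prod_le`]

`c n = ‖a n‖²`; `D = 2C/(s-1)` bounds all partial sums (`abel_bound`); `C > 0` wlog (`c 1 = 1 ≤ C`).  Fix `F` (primes; drop those dividing `N`: their weight is `0`).
For `p ∈ F`, `X_p = p^{-s} ∈ (0, 1/2]`.  For every `K ≥ 1` all factors `S_{p,K} = ∑_{k<K} c(p^k) X_p^k` are `≥ 1`.  Put `L_p = sup_K S_{p,K}` (bounded by `D`); `∏_p L_p ≤ D`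
 (to avoid sups: by `exp_le` applied with `L = D / ∏_{p' ≠ p} …` is awkward; better: monotone limits `S_{p,K} → L_p`, `tendsto_finset_prod`, `le_of_tendsto'`).
`exp_le` with `b k = a (p^k)`: `exp(c_p X_p)(1 - X_p²) ≤ L_p`.  Hence `exp(∑ c_p X_p) ∏ (1 - X_p²) ≤ D`, so
`∑_{p∈F} c_p X_p ≤ log D - ∑ log(1 - X_p²) ≤ Lam s + log(2C) + ∑_p 2 p^{-2}` (`-log(1-u) ≤ 2u` for `0 ≤ u ≤ 1/2`; `∑_{p ∈ F} p^{-2s} ≤ ∑_n n^{-2} ≤ 2`).
-/

set_option autoImplicit false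

namespace Fermat.Agent.S48

theorem rankinAux_exp_le {u : ℝ} (h0 : 0 ≤ u) (h1 : u ≤ 1 / 2) : Real.exp (-(2 * u)) ≤ 1 - u := by
  have hpos : 0 < 1 - u := by linarith
  rw [← Real.le_log_iff_exp_le hpos]
  have h := Real.one_sub_inv_le_log_of_pos hpos
  refine le_trans ?_ h
  have h2 : (1 - u)⁻¹ ≤ 1 + 2 * u := by
    rw [inv_eq_one_div, div_le_iff₀ hpos]
    nlinarith
  linarith

theorem rankinAux_X {p : ℕ} (hp : p.Prime) {s : ℝ} (hs : 1 < s) :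
    0 < (p : ℝ) ^ (-s) ∧ (p : ℝ) ^ (-s) ≤ 1 / 2 := by
  have hp2 : (2 : ℝ) ≤ p := by exact_mod_cast hp.two_le
  have hp0 : (0 : ℝ) < p := by linarith
  refine ⟨Real.rpow_pos_of_pos hp0 _, ?_⟩
  calc (p : ℝ) ^ (-s) ≤ (p : ℝ) ^ (-1 : ℝ) :=
        Real.rpow_le_rpow_of_exponent_le (by linarith) (by linarith)
    _ = (p : ℝ)⁻¹ := Real.rpow_neg_one _
    _ ≤ 1 / 2 := by
        rw [inv_eq_one_div]
        exact one_div_le_one_div_of_le (by norm_num) hp2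

theorem rankinAux_sq_sum (F : Finset ℕ) (hF : ∀ p ∈ F, p.Prime) {s : ℝ} (hs : 1 < s) :
    ∑ p ∈ F, ((p : ℝ) ^ (-s)) ^ 2 ≤ 2 := by
  have h1 : ∑ p ∈ F, ((p : ℝ) ^ (-s)) ^ 2 ≤ ∑ n ∈ Finset.Icc 1 (F.sup id), (n : ℝ) ^ (-(2 * s)) := by
    have h2 : ∀ p ∈ F, ((p : ℝ) ^ (-s)) ^ 2 = (p : ℝ) ^ (-(2 * s)) := by
      intro p _
      rw [← Real.rpow_natCast, ← Real.rpow_mul (by positivity)]
      congr 1
      push_cast
      ring
    rw [Finset.sum_congr rfl h2]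
    refine Finset.sum_le_sum_of_subset_of_nonneg ?_ fun n _ _ => by positivity
    intro p hp
    exact Finset.mem_Icc.2 ⟨(hF p hp).one_lt.le, Finset.le_sup (f := id) hp⟩
  refine h1.trans ((sum_rpow_le (2 * s) (by linarith) _).trans ?_)
  have : 1 / (2 * s - 1) ≤ 1 := by
    rw [div_le_one (by linarith)]
    linarith
  linarith

theorem rankin (N : ℕ) (a e : ℕ → ℂ) (h : HeckeRel N a e) (h1 : a 1 = 1)
    (he : ∀ p : ℕ, p.Prime → ¬ p ∣ N → ‖e p‖ = 1) (C : ℝ)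
    (hC : ∀ x : ℕ, 1 ≤ x → ∑ n ∈ Finset.range (x + 1), ‖a n‖ ^ 2 ≤ C * x) :
    UB (fun p => if p ∣ N then 0 else ‖a p‖ ^ 2) 1 := by
  have hC1 : 1 ≤ C := by
    have h2 := hC 1 le_rfl
    simp only [Finset.sum_range_succ, Finset.range_zero, Finset.sum_empty, zero_add, h1, norm_one,
      one_pow, Nat.cast_one, mul_one] at h2
    have : 0 ≤ ‖a 0‖ ^ 2 := by positivity
    linarith
  refine ⟨Real.log (2 * C) + 4, fun s hs hs2 F hF => ?_⟩
  have hs1 : 0 < s - 1 := by linarith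
  set D : ℝ := 2 * C / (s - 1) with hD
  have hD0 : 0 < D := by positivity
  have hlogD : Real.log D = 1 * Lam s + Real.log (2 * C) := by
    rw [hD, Lam, div_eq_mul_one_div, Real.log_mul (by positivity) (by positivity)]
    ring
  let c : ℕ → ℝ := fun n => ‖a n‖ ^ 2
  have hc0 : ∀ n, 0 ≤ c n := fun n => by positivity
  have hc1 : c 1 = 1 := by simp [c, h1]
  have hmul : ∀ m n : ℕ, m.Coprime n → m.Coprime N → c (m * n) = c m * c n := by
    intro m n hmn hmN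
    simp only [c]
    rw [h.mul h1 m n hmn hmN, norm_mul, mul_pow]
  have hab : ∀ X : ℕ, ∑ n ∈ Finset.Icc 1 X, c n * (n : ℝ) ^ (-s) ≤ D :=
    fun X => abel_bound c hc0 C hC s hs hs2 X
  let F' : Finset ℕ := F.filter fun p => ¬ p ∣ N
  have hF' : ∀ p ∈ F', p.Prime ∧ ¬ p ∣ N := by
    intro p hp
    have := Finset.mem_filter.1 hp
    exact ⟨hF p this.1, this.2⟩
  have hsum : ∑ p ∈ F, (if p ∣ N then 0 else ‖a p‖ ^ 2) * (p : ℝ) ^ (-s)
      = ∑ p ∈ F', c p * (p : ℝ) ^ (-s) := by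
    rw [Finset.sum_filter]
    refine Finset.sum_congr rfl fun p _ => ?_
    by_cases hp : p ∣ N <;> simp [hp, c]
  rw [hsum]
  let S : ℕ → ℕ → ℝ := fun p K => ∑ k ∈ Finset.range K, c (p ^ k) * ((p : ℝ) ^ (-s)) ^ k
  have hSmono : ∀ p, Monotone (S p) := by
    intro p
    refine monotone_nat_of_le_succ fun K => ?_
    simp only [S]
    rw [Finset.sum_range_succ]
    have : 0 ≤ c (p ^ K) * ((p : ℝ) ^ (-s)) ^ K := mul_nonneg (hc0 _) (by positivity)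
    linarith
  have hSbdd : ∀ p ∈ F', BddAbove (Set.range (S p)) := by
    intro p hp
    refine ⟨D, ?_⟩
    rintro _ ⟨K, rfl⟩
    have := prod_le N c hc0 hc1 hmul s D hab {p} (by simpa using hF' p hp) K
    simpa [S] using this
  let L : ℕ → ℝ := fun p => ⨆ K, S p K
  have hSL : ∀ p ∈ F', ∀ K, S p K ≤ L p := fun p hp K => le_ciSup (hSbdd p hp) K
  have hprodL : ∏ p ∈ F', L p ≤ D := by
    have ht : Filter.Tendsto (fun K => ∏ p ∈ F', S p K) Filter.atTop (nhds (∏ p ∈ F', L p)) :=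
      tendsto_finsetProd _ fun p hp => tendsto_atTop_ciSup (hSmono p) (hSbdd p hp)
    exact le_of_tendsto' ht fun K => prod_le N c hc0 hc1 hmul s D hab F' hF' K
  have hloc : ∀ p ∈ F', Real.exp (c p * (p : ℝ) ^ (-s) - 2 * ((p : ℝ) ^ (-s)) ^ 2) ≤ L p := by
    intro p hp
    obtain ⟨hpp, hpN⟩ := hF' p hp
    obtain ⟨hX0, hX1⟩ := rankinAux_X hpp hs
    have h3 := exp_le (a p) (e p) (he p hpp hpN) (fun k => a (p ^ k)) (by simpa using h1)
      (by simp) (fun k => h.rec hpp hpN k) ((p : ℝ) ^ (-s)) hX0.le (by linarith) (L p)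
      (fun K => hSL p hp K)
    refine le_trans ?_ h3
    rw [sub_eq_add_neg, Real.exp_add]
    refine mul_le_mul_of_nonneg_left ?_ (Real.exp_pos _).le
    refine rankinAux_exp_le (by positivity) ?_
    nlinarith
  have hexp : Real.exp (∑ p ∈ F', (c p * (p : ℝ) ^ (-s) - 2 * ((p : ℝ) ^ (-s)) ^ 2)) ≤ D := by
    rw [Real.exp_sum]
    exact (Finset.prod_le_prod (fun p _ => (Real.exp_pos _).le) hloc).trans hprodL
  rw [← Real.le_log_iff_exp_le hD0, Finset.sum_sub_distrib, ← Finset.mul_sum, hlogD] at hexp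
  have h4 := rankinAux_sq_sum F' (fun p hp => (hF' p hp).1) hs
  linarith

end Fermat.Agent.S48
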