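import Mathlib

/-!
# S48 / R2 : Abel summation
[key S48/R-2, Mathlib only, ~200 lines]

`S(x) = ∑_{n ≤ x} c_n ≤ C x`.  `∑_{1 ≤ n ≤ X} c_n n^{-s} = S'(X) X^{-s} + ∑_{n < X} S'(n) (n^{-s} - (n+1)^{-s})` (`S'` = sum over `1 ≤ n`; `Finset.sum_by_parts`-type identity or
induction on `X`), `≤ C X^{1-s} + C ∑_{n<X} n (n^{-s} - (n+1)^{-s}) = C ∑_{n ≤ X} n^{-s} ≤ C (1 + 1/(s-1)) ≤ 2 C/(s-1)` for `1 < s < 2`
(`∑_{2 ≤ n ≤ X} n^{-s} ≤ ∫₁^X t^{-s} dt ≤ 1/(s-1)`; or telescoping: `n^{-s} ≤ ((n-1)^{1-s} - n^{1-s})/(s-1)` by the mean value theorem / convexity).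
An easy way: prove by induction on `X` the inequality `∑_{1≤n≤X} c_n n^{-s} ≤ S'(X) X^{-s} + C ∑_{n<X} n (n^{-s} - (n+1)^{-s})`.
-/

set_option autoImplicit false

namespace Fermat.Agent.S48

theorem sum_rpow_le (s : ℝ) (hs : 1 < s) (X : ℕ) :
    ∑ n ∈ Finset.Icc 1 X, (n : ℝ) ^ (-s) ≤ 1 + 1 / (s - 1) := by
  have hs1 : 0 < s - 1 := by linarith
  rcases Nat.eq_zero_or_pos X with rfl | hX
  · simp only [zero_lt_one, Finset.Icc_eq_empty_of_lt, Finset.sum_empty]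
    positivity
  have hX1 : 1 ≤ X := hX
  have h1 : ∑ n ∈ Finset.Icc 1 X, (n : ℝ) ^ (-s)
      = 1 + ∑ i ∈ Finset.Ico 1 X, (((i + 1 : ℕ) : ℝ)) ^ (-s) := by
    rw [Finset.sum_Ico_add' (fun n : ℕ => (n : ℝ) ^ (-s)) 1 X 1,
      show Finset.Icc 1 X = Finset.Ico 1 (X + 1) from by ext; simp,
      Finset.sum_eq_sum_Ico_succ_bot (by omega)]
    simp
  have hanti : AntitoneOn (fun t : ℝ => t ^ (-s)) (Set.Icc ((1 : ℕ) : ℝ) (X : ℝ)) := by
    intro x hx y _ hxy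
    have hx0 : (0 : ℝ) < x := lt_of_lt_of_le (by norm_num) hx.1
    exact Real.rpow_le_rpow_of_nonpos hx0 hxy (by linarith)
  have h2 := AntitoneOn.sum_le_integral_Ico hX1 hanti
  have h3 : ∫ x in ((1 : ℕ) : ℝ)..(X : ℝ), x ^ (-s) = (1 - (X : ℝ) ^ (1 - s)) / (s - 1) := by
    rw [integral_rpow]
    · rw [Nat.cast_one, Real.one_rpow, show -s + 1 = -(s - 1) by ring, show 1 - s = -(s - 1) by ring,
        div_neg, ← neg_div, neg_sub]
    · right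
      refine ⟨by linarith, ?_⟩
      rw [Set.uIcc_of_le (by exact_mod_cast hX1)]
      intro h
      have := h.1
      norm_num at this
  rw [h1]
  have h4 : (0 : ℝ) ≤ (X : ℝ) ^ (1 - s) := by positivity
  have h5 : (1 - (X : ℝ) ^ (1 - s)) / (s - 1) ≤ 1 / (s - 1) :=
    div_le_div_of_nonneg_right (by linarith) hs1.le
  exact add_le_add_right (h2.trans (h3.le.trans h5)) 1

theorem abel_aux (c : ℕ → ℝ) (C : ℝ)
    (hC : ∀ x : ℕ, ∑ n ∈ Finset.Icc 1 x, c n ≤ C * x) (s : ℝ) (hs : 0 < s) (X : ℕ) :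
    ∑ n ∈ Finset.Icc 1 X, c n * (n : ℝ) ^ (-s) ≤
      C * ∑ n ∈ Finset.Icc 1 X, (n : ℝ) ^ (-s)
        - (C * X - ∑ n ∈ Finset.Icc 1 X, c n) * (X : ℝ) ^ (-s) := by
  induction X with
  | zero => simp
  | succ X ih =>
    rw [Finset.sum_Icc_succ_top (by omega), Finset.sum_Icc_succ_top (by omega),
      Finset.sum_Icc_succ_top (by omega)]
    have hδ : 0 ≤ C * X - ∑ n ∈ Finset.Icc 1 X, c n := by linarith [hC X]
    have hmono : (C * X - ∑ n ∈ Finset.Icc 1 X, c n) * ((X + 1 : ℕ) : ℝ) ^ (-s)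
        ≤ (C * X - ∑ n ∈ Finset.Icc 1 X, c n) * (X : ℝ) ^ (-s) := by
      rcases Nat.eq_zero_or_pos X with rfl | hX
      · simp
      · refine mul_le_mul_of_nonneg_left ?_ hδ
        exact Real.rpow_le_rpow_of_nonpos (by exact_mod_cast hX) (by push_cast; linarith)
          (by linarith)
    push_cast at hmono ⊢
    nlinarith

theorem abel_bound (c : ℕ → ℝ) (hc : ∀ n, 0 ≤ c n) (C : ℝ)
    (hC : ∀ x : ℕ, 1 ≤ x → ∑ n ∈ Finset.range (x + 1), c n ≤ C * x)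
    (s : ℝ) (hs : 1 < s) (hs2 : s < 2) (X : ℕ) :
    ∑ n ∈ Finset.Icc 1 X, c n * (n : ℝ) ^ (-s) ≤ 2 * C / (s - 1) := by
  have hs1 : 0 < s - 1 := by linarith
  have hC0 : 0 ≤ C := by
    have h := hC 1 le_rfl
    have h2 : 0 ≤ ∑ n ∈ Finset.range (1 + 1), c n := Finset.sum_nonneg fun n _ => hc n
    simpa using h2.trans h
  have hC' : ∀ x : ℕ, ∑ n ∈ Finset.Icc 1 x, c n ≤ C * x := by
    intro x
    rcases Nat.eq_zero_or_pos x with rfl | hx
    · simp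
    · refine le_trans ?_ (hC x hx)
      refine Finset.sum_le_sum_of_subset_of_nonneg ?_ fun n _ _ => hc n
      intro n hn
      rw [Finset.mem_Icc] at hn
      exact Finset.mem_range.2 (by omega)
  have h1 := abel_aux c C hC' s (by linarith) X
  have h2 : 0 ≤ (C * X - ∑ n ∈ Finset.Icc 1 X, c n) * (X : ℝ) ^ (-s) :=
    mul_nonneg (by linarith [hC' X]) (by positivity)
  have h3 := mul_le_mul_of_nonneg_left (sum_rpow_le s hs X) hC0
  have h4 : 1 + 1 / (s - 1) ≤ 2 / (s - 1) := by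
    rw [show (2 : ℝ) / (s - 1) = 1 / (s - 1) + 1 / (s - 1) by ring]
    have : 1 ≤ 1 / (s - 1) := by
      rw [le_div_iff₀ hs1]; linarith
    linarith
  have h5 := mul_le_mul_of_nonneg_left h4 hC0
  calc _ ≤ C * (2 / (s - 1)) := by linarith
    _ = 2 * C / (s - 1) := by ring

end Fermat.Agent.S48
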